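import Mathlib
import Fermat.Prelude.Def_ExtCitation_AdmissibleExtension_v2
import Fermat.Agent.Lib.FrobProfinite
import Fermat.Agent.S54.Frobenius
import Fermat.Agent.Lib.ValAut

/-!
# S14, package W: the bridge from `ℚ̄` to finite level

Lifting of finite-level inertia / decomposition elements of a finite Galois extension `L/ℚ`
(inside `AlgebraicClosure ℚ`) to the inertia / decomposition subgroup of a valuation subring
`A` of `AlgebraicClosure ℚ`.
-/

set_option autoImplicit false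
open scoped Pointwise NumberField

namespace Fermat.Agent.S14.W.Bridge

local notation "Qb" => AlgebraicClosure ℚ
local notation "Gq" => (AlgebraicClosure ℚ ≃ₐ[ℚ] AlgebraicClosure ℚ)
local notation "Bq" => integralClosure ℤ (AlgebraicClosure ℚ)

open Fermat.Agent.Lib.FrobProfinite

attribute [local instance] isAlgebraic_Qb isAlgClosure_Qb galAction smulCommClass_galAction
  discTop discTop_discrete continuousSMul_galAction isInvariant_galAction

noncomputable section

/-! ### Membership criteria for the decomposition and inertia subgroups -/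

section criteria

variable (A : ValuationSubring Qb)

theorem valuation_le_one_of_isIntegral {x : Qb} (hx : IsIntegral ℤ x) : A.valuation x ≤ 1 :=
  (A.valuation_le_one_iff _).mpr (mem_valuationSubring_of_isIntegral A hx)

/-- If `σ` moves every algebraic integer by an element of the maximal ideal, then so does
`σ⁻¹`. -/
theorem inv_moves_little (σ : Gq)
    (h : ∀ x : Qb, IsIntegral ℤ x → A.valuation (σ x - x) < 1) :
    ∀ x : Qb, IsIntegral ℤ x → A.valuation (σ⁻¹ x - x) < 1 := by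
  intro x hx
  have hy : IsIntegral ℤ (σ⁻¹ x) := map_isIntegral_int (σ⁻¹ : Gq) hx
  have h1 := h (σ⁻¹ x) hy
  have h2 : σ (σ⁻¹ x) = x := σ.apply_symm_apply x
  rw [h2] at h1
  rw [← Valuation.map_neg, neg_sub]
  exact h1

theorem mem_of_moves_little {ℓ : ℕ} (hℓ : ℓ.Prime) (hA : A.LiesOverPrime ℓ) (σ : Gq)
    (h : ∀ x : Qb, IsIntegral ℤ x → A.valuation (σ x - x) < 1) (x : Qb) (hx : x ∈ A) :
    σ x ∈ A ∧ A.valuation (σ x - x) < 1 := by
  have hv : A.valuation ((ℓ : ℕ) : Qb) < 1 := A.mem_nonunits_iff.mp hA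
  obtain ⟨s, t, hs, ht, hs1, hst⟩ :=
    Fermat.Agent.S54.Frobenius.exists_integral_fraction A hℓ hv hx
      (Fermat.Agent.S54.Frobenius.isAlgebraic_int x)
  have hs0 : s ≠ 0 := by
    rintro rfl
    rw [map_zero] at hs1
    exact zero_ne_one hs1
  have hσs0 : σ s ≠ 0 := (map_ne_zero σ).mpr hs0
  have hσs1 : A.valuation (σ s) = 1 := by
    have h1 : σ s = s + (σ s - s) := by ring
    rw [h1]
    have h2 : A.valuation (σ s - s) < A.valuation s := by rw [hs1]; exact h s hs
    rw [Valuation.map_add_eq_of_lt_left _ h2, hs1]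
  have hx' : x = t / s := by
    rw [← hst]; field_simp
  have hσx : σ x = σ t / σ s := by rw [hx', map_div₀]
  have hσt : A.valuation (σ t) ≤ 1 :=
    valuation_le_one_of_isIntegral A (map_isIntegral_int σ ht)
  have ht1 : A.valuation t ≤ 1 := valuation_le_one_of_isIntegral A ht
  constructor
  · rw [← A.valuation_le_one_iff, hσx, map_div₀, hσs1, div_one]
    exact hσt
  · have h3 : σ x - x = ((σ t - t) * s - t * (σ s - s)) / (s * σ s) := by
      rw [hσx, hx']; field_simp; ring
    rw [h3, map_div₀, map_mul, hs1, hσs1, mul_one, div_one]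
    refine lt_of_le_of_lt (Valuation.map_sub _ _ _) (max_lt ?_ ?_)
    · rw [map_mul, hs1, mul_one]
      exact h t ht
    · rw [map_mul]
      exact lt_of_le_of_lt (mul_le_of_le_one_left' ht1) (h s hs)

/-- Criterion for membership in the decomposition subgroup. -/
theorem mem_decompositionSubgroup_of_forall (σ : Gq) (h : ∀ x : Qb, x ∈ A → σ x ∈ A)
    (h' : ∀ x : Qb, x ∈ A → σ⁻¹ x ∈ A) : σ ∈ A.decompositionSubgroup ℚ := by
  rw [MulAction.mem_stabilizer_iff]
  apply le_antisymm
  · intro x hx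
    rw [ValuationSubring.mem_pointwise_smul_iff_inv_smul_mem] at hx
    have := h _ hx
    have e : σ (σ⁻¹ • x) = x := σ.apply_symm_apply x
    rwa [e] at this
  · intro x hx
    rw [ValuationSubring.mem_pointwise_smul_iff_inv_smul_mem]
    exact h' x hx

/-- Criterion for membership in the inertia subgroup: `σ` moves every algebraic integer by an
element of the maximal ideal of `A`. -/
theorem mem_inertiaSubgroupIn_of_moves_little {ℓ : ℕ} (hℓ : ℓ.Prime) (hA : A.LiesOverPrime ℓ)
    (σ : Gq) (h : ∀ x : Qb, IsIntegral ℤ x → A.valuation (σ x - x) < 1) :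
    σ ∈ A.inertiaSubgroupIn ℚ := by
  have hinv := inv_moves_little A σ h
  have hdec : σ ∈ A.decompositionSubgroup ℚ :=
    mem_decompositionSubgroup_of_forall A σ
      (fun x hx => (mem_of_moves_little A hℓ hA σ h x hx).1)
      (fun x hx => (mem_of_moves_little A hℓ hA σ⁻¹ hinv x hx).1)
  refine ⟨⟨σ, hdec⟩, ?_, rfl⟩
  show (⟨σ, hdec⟩ : A.decompositionSubgroup ℚ) ∈ A.inertiaSubgroup ℚ
  rw [ValuationSubring.inertiaSubgroup, MonoidHom.mem_ker]
  ext r
  obtain ⟨a, rfl⟩ := IsLocalRing.residue_surjective r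
  show (⟨σ, hdec⟩ : A.decompositionSubgroup ℚ) • (IsLocalRing.residue A a) = IsLocalRing.residue A a
  rw [← IsLocalRing.ResidueField.residue_smul, ← sub_eq_zero, ← map_sub,
    IsLocalRing.residue_eq_zero_iff, ← ValuationSubring.coe_mem_nonunits_iff,
    A.mem_nonunits_iff]
  exact (mem_of_moves_little A hℓ hA σ h a a.2).2

end criteria

/-! ### The relative profinite setting: `Gal(ℚ̄/L)` acting on the algebraic integers -/

section relative

variable (L : IntermediateField ℚ Qb)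

/-- The subring of algebraic integers lying in `L`. -/
def BL : Subring Bq where
  carrier := {b | (b : Qb) ∈ L}
  mul_mem' := fun {a b} ha hb => by
    show ((a * b : Bq) : Qb) ∈ L
    push_cast
    exact mul_mem ha hb
  one_mem' := by
    show ((1 : Bq) : Qb) ∈ L
    push_cast
    exact one_mem L
  add_mem' := fun {a b} ha hb => by
    show ((a + b : Bq) : Qb) ∈ L
    push_cast
    exact add_mem ha hb
  zero_mem' := by
    show ((0 : Bq) : Qb) ∈ L
    push_cast
    exact zero_mem L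
  neg_mem' := fun {a} ha => by
    show ((-a : Bq) : Qb) ∈ L
    push_cast
    exact neg_mem ha

theorem mem_BL (b : Bq) : b ∈ BL L ↔ (b : Qb) ∈ L := Iff.rfl

theorem fixing_smul_coe (g : L.fixingSubgroup) (b : Bq) : ((g • b : Bq) : Qb) = (g : Gq) (b : Qb) :=
  rfl

theorem fixing_apply_of_mem (g : L.fixingSubgroup) {x : Qb} (hx : x ∈ L) : (g : Gq) x = x :=
  (IntermediateField.mem_fixingSubgroup_iff L (g : Gq)).mp g.2 x hx

theorem smulCommClass_fixing : SMulCommClass (L.fixingSubgroup) (BL L) Bq where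
  smul_comm g a b := by
    apply Subtype.ext
    show (g : Gq) (((a : Bq) : Qb) * (b : Qb)) = ((a : Bq) : Qb) * (g : Gq) (b : Qb)
    rw [map_mul, fixing_apply_of_mem L g a.2]

theorem continuousSMul_fixing : ContinuousSMul (L.fixingSubgroup) Bq := by
  rw [continuousSMul_iff_stabilizer_isOpen]
  intro x
  have h := stabilizer_isOpen_of_isIntegral (K := ℚ) (L := Qb) (x : Qb)
  have h2 : IsOpen ((Subtype.val : L.fixingSubgroup → Gq) ⁻¹'
      (MulAction.stabilizer Gq (x : Qb) : Set Gq)) := h.preimage continuous_subtype_val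
  convert h2 using 1
  ext g
  simp only [SetLike.mem_coe, MulAction.mem_stabilizer_iff, Set.mem_preimage]
  constructor
  · intro hg
    exact congrArg Subtype.val hg
  · intro hg
    exact Subtype.ext hg

theorem compactSpace_fixing [FiniteDimensional ℚ L] : CompactSpace (L.fixingSubgroup) :=
  isCompact_iff_compactSpace.mp (L.fixingSubgroup_isClosed).isCompact

theorem isInvariant_fixing : Algebra.IsInvariant (BL L) Bq (L.fixingSubgroup) := by
  refine ⟨fun b hb => ?_⟩
  have hmem : (b : Qb) ∈ L := by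
    have h1 : (b : Qb) ∈ IntermediateField.fixedField L.fixingSubgroup := by
      rw [IntermediateField.mem_fixedField_iff]
      intro f hf
      exact congrArg Subtype.val (hb ⟨f, hf⟩)
    rwa [InfiniteGalois.fixedField_fixingSubgroup] at h1
  exact ⟨⟨b, hmem⟩, rfl⟩

end relative

/-! ### Lifting -/

section lift

open Fermat.Agent.S54.Frobenius (primeOf mem_primeOf primeOf_isPrime)

variable (L : IntermediateField ℚ Qb) [FiniteDimensional ℚ L]
variable (A : ValuationSubring Qb)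

theorem smul_mem_primeOf_iff (σ : Gq) (b : Bq) :
    σ • b ∈ primeOf A ↔ A.valuation (σ (b : Qb)) < 1 := Iff.rfl

theorem mem_smul_primeOf_iff (σ : Gq) (b : Bq) :
    b ∈ σ • primeOf A ↔ A.valuation (σ⁻¹ (b : Qb)) < 1 := by
  rw [Ideal.mem_pointwise_smul_iff_inv_smul_mem]
  rfl

/-- A lift of `τ` to `Gal(ℚ̄/ℚ)` stabilising the prime of algebraic integers cut out by `A`,
provided `τ` preserves the prime of `L` below `A`. -/
theorem exists_lift_stabilizing (τ : L ≃ₐ[ℚ] L)
    (hτ : ∀ x : L, IsIntegral ℤ x →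
      (A.valuation (x : Qb) < 1 ↔ A.valuation ((τ x : L) : Qb) < 1)) :
    ∃ σ : Gq, σ • primeOf A = primeOf A ∧ ∀ x : L, σ (x : Qb) = ((τ x : L) : Qb) := by
  have := smulCommClass_fixing L
  have := continuousSMul_fixing L
  have := compactSpace_fixing L
  have := isInvariant_fixing L
  have := primeOf_isPrime A
  let σ₀ : Gq := τ.liftNormal Qb
  have hσ₀ : ∀ x : L, σ₀ (x : Qb) = ((τ x : L) : Qb) := fun x => τ.liftNormal_commutes Qb x
  have hσ₀inv : ∀ x : L, σ₀⁻¹ (x : Qb) = ((τ.symm x : L) : Qb) := by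
    intro x
    have h1 := hσ₀ (τ.symm x)
    rw [τ.apply_symm_apply] at h1
    rw [← h1]
    exact σ₀.symm_apply_apply _
  have hP : (σ₀ • primeOf A).IsPrime := by
    rw [Ideal.pointwise_smul_def]
    exact Ideal.map_isPrime_of_equiv (MulSemiringAction.toRingEquiv Gq Bq σ₀)
  have hunder : (σ₀ • primeOf A).under (BL L) = (primeOf A).under (BL L) := by
    ext a
    rw [Ideal.mem_comap, Ideal.mem_comap, mem_smul_primeOf_iff, mem_primeOf]
    have ha : ((a : Bq) : Qb) ∈ L := a.2
    have e1 : ((algebraMap (BL L) Bq a : Bq) : Qb) = ((⟨((a : Bq) : Qb), ha⟩ : L) : Qb) := rfl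
    rw [e1, hσ₀inv]
    have hint : IsIntegral ℤ (τ.symm ⟨((a : Bq) : Qb), ha⟩) := by
      apply map_isIntegral_int (τ.symm : L →ₐ[ℚ] L)
      have h2 : IsIntegral ℤ ((a : Bq) : Qb) := (a : Bq).2
      exact (isIntegral_algebraMap_iff (FaithfulSMul.algebraMap_injective L Qb)).mp h2
    have h3 := hτ _ hint
    rw [τ.apply_symm_apply] at h3
    exact h3
  obtain ⟨g, hg⟩ := Algebra.IsInvariant.exists_smul_of_under_eq_of_profinite
    (A := BL L) (G := L.fixingSubgroup) (σ₀ • primeOf A) (primeOf A) hunder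
  refine ⟨(g : Gq) * σ₀, ?_, fun x => ?_⟩
  · rw [mul_smul]
    exact hg.symm
  · show (g : Gq) (σ₀ (x : Qb)) = _
    rw [hσ₀]
    exact fixing_apply_of_mem L g (τ x).2

theorem val_lt_one_iff_of_stabilizing (σ : Gq) (hσ : σ • primeOf A = primeOf A) (x : Qb)
    (hx : IsIntegral ℤ x) : A.valuation x < 1 ↔ A.valuation (σ x) < 1 := by
  have h1 : (⟨x, hx⟩ : Bq) ∈ primeOf A ↔ σ • (⟨x, hx⟩ : Bq) ∈ σ • primeOf A :=
    (Ideal.smul_mem_pointwise_smul_iff).symm
  rw [hσ] at h1
  exact h1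

/-- **Decomposition lift.** If `τ ∈ Gal(L/ℚ)` preserves the prime of `𝓞 L` below `A`, then `τ`
is the restriction of an element of the decomposition subgroup of `A`. -/
theorem exists_decomposition_lift {ℓ : ℕ} (hℓ : ℓ.Prime) (hA : A.LiesOverPrime ℓ)
    (τ : L ≃ₐ[ℚ] L)
    (hτ : ∀ x : L, IsIntegral ℤ x →
      (A.valuation (x : Qb) < 1 ↔ A.valuation ((τ x : L) : Qb) < 1)) :
    ∃ σ ∈ A.decompositionSubgroup ℚ, ∀ x : L, σ (x : Qb) = ((τ x : L) : Qb) := by
  obtain ⟨σ, hσ, hσL⟩ := exists_lift_stabilizing L A τ hτ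
  refine ⟨σ, ?_, hσL⟩
  have hv : A.valuation ((ℓ : ℕ) : Qb) < 1 := A.mem_nonunits_iff.mp hA
  have key : ∀ ρ : Gq, (∀ x : Qb, IsIntegral ℤ x → (A.valuation x < 1 ↔ A.valuation (ρ x) < 1)) →
      ∀ x : Qb, x ∈ A → ρ x ∈ A := by
    intro ρ hρ x hx
    obtain ⟨s, t, hs, ht, hs1, hst⟩ :=
      Fermat.Agent.S54.Frobenius.exists_integral_fraction A hℓ hv hx
        (Fermat.Agent.S54.Frobenius.isAlgebraic_int x)
    have hs0 : s ≠ 0 := by
      rintro rfl
      rw [map_zero] at hs1
      exact zero_ne_one hs1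
    have hρs1 : A.valuation (ρ s) = 1 := by
      refine le_antisymm (valuation_le_one_of_isIntegral A (map_isIntegral_int ρ hs)) ?_
      by_contra hlt
      push Not at hlt
      have := (hρ s hs).mpr hlt
      rw [hs1] at this
      exact lt_irrefl _ this
    have hx' : x = t / s := by
      rw [← hst]; field_simp
    rw [← A.valuation_le_one_iff, hx', map_div₀, map_div₀, hρs1, div_one]
    exact valuation_le_one_of_isIntegral A (map_isIntegral_int ρ ht)
  have h1 := val_lt_one_iff_of_stabilizing A σ hσ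
  have h2 : ∀ x : Qb, IsIntegral ℤ x → (A.valuation x < 1 ↔ A.valuation (σ⁻¹ x) < 1) := by
    intro x hx
    have h3 := h1 (σ⁻¹ x) (map_isIntegral_int (σ⁻¹ : Gq) hx)
    have e : σ (σ⁻¹ x) = x := σ.apply_symm_apply x
    rw [e] at h3
    exact h3.symm
  exact mem_decompositionSubgroup_of_forall A σ (key σ h1) (key σ⁻¹ h2)

/-- One-directional variant of `exists_decomposition_lift` (`τ` has finite order). -/
theorem exists_decomposition_lift' {ℓ : ℕ} (hℓ : ℓ.Prime) (hA : A.LiesOverPrime ℓ)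
    (τ : L ≃ₐ[ℚ] L)
    (hτ : ∀ x : L, IsIntegral ℤ x →
      A.valuation (x : Qb) < 1 → A.valuation ((τ x : L) : Qb) < 1) :
    ∃ σ ∈ A.decompositionSubgroup ℚ, ∀ x : L, σ (x : Qb) = ((τ x : L) : Qb) := by
  refine exists_decomposition_lift L A hℓ hA τ (fun x hx => ⟨hτ x hx, fun h => ?_⟩)
  have hiter : ∀ k : ℕ, ∀ y : L, IsIntegral ℤ y → A.valuation (y : Qb) < 1 →
      A.valuation (((τ ^ k) y : L) : Qb) < 1 := by
    intro k
    induction k with
    | zero => intro y _ hy; simpa using hy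
    | succ k ih =>
      intro y hy hy1
      have e : (τ ^ (k + 1)) y = τ ((τ ^ k) y) := by
        rw [pow_succ']; rfl
      rw [e]
      exact hτ _ (map_isIntegral_int ((τ ^ k : L ≃ₐ[ℚ] L) : L →ₐ[ℚ] L) hy) (ih y hy hy1)
  have hfin : IsOfFinOrder τ := isOfFinOrder_of_finite τ
  have hpos : 0 < orderOf τ := hfin.orderOf_pos
  have h1 := hiter (orderOf τ - 1) (τ x) (map_isIntegral_int (τ : L →ₐ[ℚ] L) hx) h
  have e2 : (τ ^ (orderOf τ - 1)) (τ x) = x := by
    have h3 : (τ ^ (orderOf τ - 1)) (τ x) = (τ ^ (orderOf τ - 1 + 1)) x := by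
      rw [pow_succ]; rfl
    rw [h3, Nat.sub_add_cancel hpos, pow_orderOf_eq_one]
    rfl
  rw [e2] at h1
  exact h1

/-- **Inertia lift.** If `τ ∈ Gal(L/ℚ)` moves every integer of `L` by an element of the maximal
ideal of `A` (i.e. `τ` lies in the inertia group of the prime of `𝓞 L` below `A`), then `τ` is
the restriction of an element of the inertia subgroup of `A`. -/
theorem exists_inertia_lift {ℓ : ℕ} (hℓ : ℓ.Prime) (hA : A.LiesOverPrime ℓ)
    (τ : L ≃ₐ[ℚ] L)
    (hτ : ∀ x : L, IsIntegral ℤ x → A.valuation (((τ x : L) : Qb) - (x : Qb)) < 1) :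
    ∃ σ ∈ A.inertiaSubgroupIn ℚ, ∀ x : L, σ (x : Qb) = ((τ x : L) : Qb) := by
  have := smulCommClass_fixing L
  have := continuousSMul_fixing L
  have := compactSpace_fixing L
  have := isInvariant_fixing L
  have := primeOf_isPrime A
  have hle : ∀ x : L, IsIntegral ℤ x → A.valuation (x : Qb) ≤ 1 := fun x hx =>
    valuation_le_one_of_isIntegral A (hx.map (IsScalarTower.toAlgHom ℤ L Qb))
  have hτ' : ∀ x : L, IsIntegral ℤ x →
      (A.valuation (x : Qb) < 1 ↔ A.valuation ((τ x : L) : Qb) < 1) := by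
    intro x hx
    constructor
    · intro h
      have e : ((τ x : L) : Qb) = (((τ x : L) : Qb) - (x : Qb)) + (x : Qb) := by ring
      rw [e]
      exact lt_of_le_of_lt (Valuation.map_add _ _ _) (max_lt (hτ x hx) h)
    · intro h
      have e : (x : Qb) = ((τ x : L) : Qb) - (((τ x : L) : Qb) - (x : Qb)) := by ring
      rw [e]
      exact lt_of_le_of_lt (Valuation.map_sub _ _ _) (max_lt h (hτ x hx))
  obtain ⟨σ₁, hσ₁, hσ₁L⟩ := exists_lift_stabilizing L A τ hτ'
  -- the automorphism of the residue ring induced by `σ₁`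
  let Q : Ideal Bq := primeOf A
  let P : Ideal (BL L) := Q.under (BL L)
  let P₀ : Ideal ℤ := Q.under ℤ
  have hLO : Q.LiesOver P := ⟨rfl⟩
  have hLO₀ : Q.LiesOver P₀ := ⟨rfl⟩
  let s₁ : MulAction.stabilizer Gq Q := ⟨σ₁, hσ₁⟩
  let e₀ : (Bq ⧸ Q) ≃ₐ[ℤ ⧸ P₀] (Bq ⧸ Q) := Ideal.Quotient.stabilizerHom Q P₀ Gq s₁
  have he₀ : ∀ b : Bq, e₀ (Ideal.Quotient.mk Q b) = Ideal.Quotient.mk Q (σ₁ • b) := fun b => rfl
  let e : (Bq ⧸ Q) ≃ₐ[(BL L) ⧸ P] (Bq ⧸ Q) :=
    AlgEquiv.ofRingEquiv (f := e₀.toRingEquiv) (by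
      intro r
      obtain ⟨a, rfl⟩ := Ideal.Quotient.mk_surjective r
      show e₀ (Ideal.Quotient.mk Q (a : Bq)) = Ideal.Quotient.mk Q (a : Bq)
      rw [he₀, Ideal.Quotient.eq]
      show A.valuation (σ₁ ((a : Bq) : Qb) - ((a : Bq) : Qb)) < 1
      have ha : ((a : Bq) : Qb) ∈ L := a.2
      have h1 := hσ₁L ⟨((a : Bq) : Qb), ha⟩
      have h2 : IsIntegral ℤ (⟨((a : Bq) : Qb), ha⟩ : L) :=
        (isIntegral_algebraMap_iff (FaithfulSMul.algebraMap_injective L Qb)).mp (a : Bq).2
      have h3 := hτ _ h2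
      rw [← h1] at h3
      exact h3)
  have he : ∀ x, e x = e₀ x := fun x => rfl
  obtain ⟨ρ, hρ⟩ := Ideal.Quotient.stabilizerHom_surjective_of_profinite
    (G := L.fixingSubgroup) P Q e.symm
  have hρ' : ∀ b : Bq, Ideal.Quotient.mk Q ((ρ : L.fixingSubgroup) • b) =
      e.symm (Ideal.Quotient.mk Q b) := by
    intro b
    rw [← hρ]
    rfl
  let σ₂ : Gq := ((ρ : L.fixingSubgroup) : Gq) * σ₁
  have key : ∀ x : Qb, IsIntegral ℤ x → A.valuation (σ₂ x - x) < 1 := by
    intro x hx
    have h1 : Ideal.Quotient.mk Q ((ρ : L.fixingSubgroup) • (σ₁ • (⟨x, hx⟩ : Bq))) =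
        Ideal.Quotient.mk Q (⟨x, hx⟩ : Bq) := by
      rw [hρ', ← he₀, ← he, e.symm_apply_apply]
    rw [Ideal.Quotient.eq] at h1
    exact h1
  refine ⟨σ₂, mem_inertiaSubgroupIn_of_moves_little A hℓ hA σ₂ key, fun x => ?_⟩
  show ((ρ : L.fixingSubgroup) : Gq) (σ₁ (x : Qb)) = _
  rw [hσ₁L]
  exact fixing_apply_of_mem L ρ (τ x).2

end lift

end

end Fermat.Agent.S14.W.Bridge
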